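import Fermat.Agent.Period.MaxPrinciple

set_option autoImplicit false

open UpperHalfPlane Filter Topology Function CongruenceSubgroup ModularCurve.Period
open scoped MatrixGroups ModularForm Manifold Pointwise ComplexConjugate

namespace Fermat.Agent.Period

open Matrix.SpecialLinearGroup

theorem J_mul_mapGL (γ : SL(2, ℤ)) :
    J * (mapGL ℝ γ) = (mapGL ℝ (jConjSL γ)) * J := by
  ext i j
  fin_cases i <;> fin_cases j <;>
    simp [J, Matrix.mul_apply, Fin.sum_univ_two, jConjMat]

theorem J_smul_smul (γ : SL(2, ℤ)) (τ : ℍ) :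
    J • (γ • τ) = jConjSL γ • (J • τ) := by
  have h1 : J • ((mapGL ℝ γ) • τ) = (mapGL ℝ (jConjSL γ)) • (J • τ) := by
    rw [← mul_smul, J_mul_mapGL, mul_smul]
  exact h1

theorem conjAct_J_smul_Gamma0 (N : ℕ) :
    (ConjAct.toConjAct (J : GL (Fin 2) ℝ)⁻¹ • (Gamma0 N : Subgroup (GL (Fin 2) ℝ))) =
      (Gamma0 N : Subgroup (GL (Fin 2) ℝ)) := by
  have hJ : (J : GL (Fin 2) ℝ)⁻¹ = J := by
    rw [inv_eq_iff_mul_eq_one, ← sq, J_sq]
  have key : ∀ γ ∈ Gamma0 N, J * (mapGL ℝ γ) * (J : GL (Fin 2) ℝ)⁻¹ ∈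
      (Gamma0 N : Subgroup (GL (Fin 2) ℝ)) := by
    intro γ hγ
    rw [J_mul_mapGL, mul_inv_cancel_right]
    exact ⟨_, jConjSL_mem_Gamma0 hγ, rfl⟩
  ext g
  rw [Subgroup.mem_pointwise_smul_iff_inv_smul_mem]
  simp only [map_inv, inv_inv, ConjAct.smul_def, ConjAct.ofConjAct_toConjAct]
  constructor
  · rintro ⟨γ, hγ, h⟩
    have h2 := key γ hγ
    rw [h, hJ] at h2
    have h3 : J * (J * g * J) * J = g := by
      have : (J : GL (Fin 2) ℝ) * J = 1 := by rw [← sq, J_sq]
      calc J * (J * g * J) * J = (J * J) * g * (J * J) := by group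
        _ = g := by rw [this]; simp
    rw [h3] at h2
    exact h2
  · rintro ⟨γ, hγ, rfl⟩
    exact key γ hγ

/-- The cusp form `τ ↦ conj (f (-conj τ))`. -/
noncomputable def conjForm {N : ℕ} (f : CuspForm (Gamma0 N) 2) : CuspForm (Gamma0 N) 2 :=
  (CuspForm.translate f (J : GL (Fin 2) ℝ)).copy (fun τ ↦ conj (f (J • τ)))
    (by
      funext τ
      change _ = ((f : ℍ → ℂ) ∣[(2 : ℤ)] (J : GL (Fin 2) ℝ)) τ
      simp [ModularForm.slash_def])
    (conjAct_J_smul_Gamma0 N).symm

@[simp] theorem conjForm_apply {N : ℕ} (f : CuspForm (Gamma0 N) 2) (τ : ℍ) :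
    conjForm f τ = conj (f (J • τ)) := rfl

theorem J_smul_J_smul (τ : ℍ) : J • (J • τ) = τ := by
  rw [← mul_smul, ← sq, J_sq, one_smul]

theorem im_J_smul (τ : ℍ) : (J • τ).im = τ.im := by
  have : ((J • τ : ℍ) : ℂ) = -conj (τ : ℂ) := coe_J_smul τ
  have h2 := congrArg Complex.im this
  simpa using h2

theorem tendsto_J_smul_atImInfty : Tendsto (fun τ : ℍ ↦ J • τ) atImInfty atImInfty := by
  rw [atImInfty, tendsto_comap_iff]
  have : (im ∘ fun τ : ℍ ↦ J • τ) = im := funext im_J_smul
  rw [this]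
  exact tendsto_comap

theorem isPrimitive_conj {F f : ℍ → ℂ} (hF : IsPrimitive F f) :
    IsPrimitive (fun τ ↦ -conj (F (J • τ))) (fun τ ↦ conj (f (J • τ))) := by
  intro τ
  have h1 : HasDerivAt (F ∘ ofComplex) (f (J • τ)) (-conj (τ : ℂ)) := by
    have := hF (J • τ)
    rwa [coe_J_smul] at this
  have h2 : HasDerivAt (fun z : ℂ ↦ (F ∘ ofComplex) (-z)) (-(f (J • τ))) (conj (τ : ℂ)) := by
    have := h1.comp (conj (τ : ℂ)) (hasDerivAt_neg (conj (τ : ℂ)))
    simpa [Function.comp_def] using this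
  have h3 := h2.conj_conj.neg
  simp only [map_neg, neg_neg, RingHomCompTriple.comp_apply, RingHom.id_apply] at h3
  refine h3.congr_of_eventuallyEq ?_
  filter_upwards [isOpen_upperHalfPlaneSet.mem_nhds τ.im_pos] with w hw
  simp only [Function.comp_apply, Pi.neg_apply]
  congr 3
  rw [J_smul, ofComplex_apply_of_im_pos hw]

theorem hasEquivariantPrimitive_conj {N : ℕ} [NeZero N] {f : CuspForm (Gamma0 N) 2} {F : ℍ → ℂ}
    (hF : ModularCurve.HasEquivariantPrimitive N f F) :
    ModularCurve.HasEquivariantPrimitive N (conjForm f) (fun τ ↦ -conj (F (J • τ))) := by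
  obtain ⟨h1, h2, h3, h4⟩ := hF
  refine ⟨isPrimitive_conj h1, ?_, ?_, ?_⟩
  · have := ((Complex.continuous_conj.tendsto 0).comp (h2.comp tendsto_J_smul_atImInfty)).neg
    simpa [Function.comp_def] using this
  · intro γ
    obtain ⟨c, hc⟩ := h3 (jConjGamma0 N γ)
    refine ⟨-conj c, fun z ↦ ?_⟩
    rw [← hc (J • z)]
    have : J • ((γ : SL(2, ℤ)) • z) = ((jConjGamma0 N γ : Gamma0 N) : SL(2, ℤ)) • (J • z) :=
      J_smul_smul _ _
    simp only [this, map_sub]
    ring
  · intro δ
    obtain ⟨L, hL⟩ := h4 (jConjSL δ)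
    refine ⟨-conj L, ?_⟩
    have h5 := ((Complex.continuous_conj.tendsto L).comp (hL.comp tendsto_J_smul_atImInfty)).neg
    refine h5.congr fun w ↦ ?_
    simp only [Function.comp_apply, J_smul_smul]

theorem periodMap_conjForm {N : ℕ} [NeZero N] (f : CuspForm (Gamma0 N) 2) (γ : Gamma0 N) :
    ModularCurve.periodMap N (conjForm f) (Additive.ofMul γ) =
      -conj (ModularCurve.periodMap N f (Additive.ofMul (jConjGamma0 N γ))) := by
  rw [periodMap_apply _ (hasEquivariantPrimitive_conj (prim_spec N f)) γ UpperHalfPlane.I,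
    periodMap_apply _ (prim_spec N f) _ (J • UpperHalfPlane.I), J_smul_smul]
  simp only [map_sub, jConjGamma0_coe]
  ring

/-- The involution on the period homomorphism in terms of the conjugate form. -/
theorem charInvolution_periodLin {N : ℕ} [NeZero N] (f : CuspForm (Gamma0 N) 2) (γ : Gamma0 N) :
    charInvolution N ℂ ℂ (periodLin N f) (Additive.ofMul γ) =
      -conj (periodLin N (conjForm f) (Additive.ofMul γ)) := by
  rw [charInvolution_apply, periodLin_apply, periodLin_apply, periodMap_conjForm]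
  simp

/-- If the periods of `f` are complex conjugates of those of `h` then `f = 0`. -/
theorem eq_zero_of_period_eq_conj {N : ℕ} [NeZero N] (f h : CuspForm (Gamma0 N) 2)
    (H : ∀ γ : Gamma0 N, periodLin N f (Additive.ofMul γ) =
      conj (periodLin N h (Additive.ofMul γ))) : f = 0 := by
  have h1 : f - h = 0 := by
    apply eq_zero_of_re_period_eq_zero
    intro γ
    have : ModularCurve.periodMap N (f - h) = periodLin N f - periodLin N h := by
      rw [← map_sub]; rfl
    rw [this, AddMonoidHom.sub_apply, H γ]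
    simp
  have h2 : Complex.I • (f + h) = 0 := by
    apply eq_zero_of_re_period_eq_zero
    intro γ
    have : ModularCurve.periodMap N (Complex.I • (f + h)) =
        Complex.I • (periodLin N f + periodLin N h) := by
      rw [← map_add, ← map_smul]; rfl
    rw [this]
    change (Complex.I • ((periodLin N f + periodLin N h) (Additive.ofMul γ))).re = 0
    rw [AddMonoidHom.add_apply, H γ]
    simp
  have h3 : f + h = 0 := by
    rcases smul_eq_zero.mp h2 with h | h
    · exact absurd h Complex.I_ne_zero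
    · exact h
  have h4 : (2 : ℂ) • f = 0 := by
    have : (2 : ℂ) • f = (f - h) + (f + h) := by
      rw [two_smul]; abel
    rw [this, h1, h3, add_zero]
  rcases smul_eq_zero.mp h4 with h | h
  · norm_num at h
  · exact h

theorem periodHomPair_injective (N : ℕ) [NeZero N] :
    Function.Injective (ModularCurve.periodHomPair N) := by
  rw [injective_iff_map_eq_zero]
  rintro ⟨f, g⟩ h
  rw [periodHomPair_apply] at h
  set P := periodLin N f with hP
  set Q := periodLin N g with hQ
  set ι := charInvolution N ℂ ℂ with hι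
  have h' : (ι P + P) + (ι Q - Q) = 0 := by
    have h2 := congrArg ι h
    rw [map_zero, map_add, map_add, map_sub, hι, charInvolution_charInvolution,
      charInvolution_charInvolution] at h2
    exact h2
  have hf : ∀ x, P x = -(ι P x) := by
    intro x
    have h3 : ((P + ι P) + (Q - ι Q)) x + ((ι P + P) + (ι Q - Q)) x = 0 := by
      rw [h, h']; simp
    simp only [AddMonoidHom.add_apply, AddMonoidHom.sub_apply] at h3
    linear_combination (1/2 : ℂ) * h3
  have hg : ∀ x, Q x = ι Q x := by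
    intro x
    have h3 : ((P + ι P) + (Q - ι Q)) x - ((ι P + P) + (ι Q - Q)) x = 0 := by
      rw [h, h']; simp
    simp only [AddMonoidHom.add_apply, AddMonoidHom.sub_apply] at h3
    linear_combination (1/2 : ℂ) * h3
  have hf0 : f = 0 := by
    apply eq_zero_of_period_eq_conj f (conjForm f)
    intro γ
    rw [← hP, hf, hι, hP, charInvolution_periodLin]
    ring
  have hg0 : g = 0 := by
    apply eq_zero_of_period_eq_conj g (-conjForm g)
    intro γ
    rw [← hQ, hg, hι, hQ, charInvolution_periodLin, map_neg, AddMonoidHom.neg_apply, map_neg]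
  rw [hf0, hg0]
  rfl

end Fermat.Agent.Period
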