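import Mathlib
import Fermat.Prelude.Def_ModularCurve_PeriodMap

set_option autoImplicit false

open scoped MatrixGroups
open ModularCurve.Period

namespace Fermat.Agent.Period

section Cocycle

variable {G : Type*} [Group G] {H : Subgroup G}

theorem out_mem (g : G) (x : G ⧸ H) :
    (Quotient.out (g • x))⁻¹ * g * Quotient.out x ∈ H := by
  rw [mul_assoc, ← QuotientGroup.eq]
  have h1 : (QuotientGroup.mk (Quotient.out (g • x)) : G ⧸ H) = g • x := QuotientGroup.out_eq' _
  have h2 : (QuotientGroup.mk (g * Quotient.out x) : G ⧸ H) = g • x := by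
    conv_rhs => rw [← QuotientGroup.out_eq' x]
    rfl
  rw [h1, h2]

/-- The cocycle with values in functions on `G ⧸ H` attached to a homomorphism `H → ℂ`. -/
noncomputable def kap (φ : Additive H →+ ℂ) (g : G) (x : G ⧸ H) : ℂ :=
  φ (Additive.ofMul ⟨(Quotient.out (g • x))⁻¹ * g * Quotient.out x, out_mem g x⟩)

theorem kap_mul (φ : Additive H →+ ℂ) (g g' : G) (x : G ⧸ H) :
    kap φ (g * g') x = kap φ g (g' • x) + kap φ g' x := by
  unfold kap
  rw [← map_add, ← ofMul_mul]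
  congr 2
  apply Subtype.ext
  simp only [Subgroup.coe_mul, mul_smul]
  group

theorem kap_one (φ : Additive H →+ ℂ) (x : G ⧸ H) : kap φ 1 x = 0 := by
  have := kap_mul φ 1 1 x
  rw [mul_one, one_smul] at this
  simpa using this

theorem kap_apply_of_mem (φ : Additive H →+ ℂ) (h : H) :
    kap φ (h : G) (QuotientGroup.mk 1 : G ⧸ H) = φ (Additive.ofMul h) := by
  have hx : (h : G) • (QuotientGroup.mk 1 : G ⧸ H) = QuotientGroup.mk 1 := by
    change (QuotientGroup.mk ((h : G) * 1) : G ⧸ H) = _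
    rw [QuotientGroup.eq]
    simp
  set x : G ⧸ H := QuotientGroup.mk 1 with hxdef
  have hmem : Quotient.out x ∈ H := by
    have : (QuotientGroup.mk (Quotient.out x) : G ⧸ H) = QuotientGroup.mk 1 :=
      QuotientGroup.out_eq' _
    rw [QuotientGroup.eq] at this
    simpa using this
  unfold kap
  have e : (⟨(Quotient.out ((h : G) • x))⁻¹ * h * Quotient.out x, out_mem (h : G) x⟩ : H) =
      (⟨Quotient.out x, hmem⟩ : H)⁻¹ * h * ⟨Quotient.out x, hmem⟩ := by
    apply Subtype.ext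
    simp [hx]
  rw [e, ofMul_mul, ofMul_mul, ofMul_inv, map_add, map_add, map_neg]
  ring

theorem kap_add (φ ψ : Additive H →+ ℂ) (g : G) (x : G ⧸ H) :
    kap (φ + ψ) g x = kap φ g x + kap ψ g x := rfl

theorem kap_smul (a : ℂ) (φ : Additive H →+ ℂ) (g : G) (x : G ⧸ H) :
    kap (a • φ) g x = a * kap φ g x := rfl

/-- central elements of `H` of order dividing two have trivial cocycle value. -/
theorem kap_central (φ : Additive H →+ ℂ) (z : G) (hz : ∀ g, z * g = g * z) (hz2 : z * z = 1)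
    (hzH : z ∈ H) (x : G ⧸ H) : kap φ z x = 0 := by
  have hx : z • x = x := by
    induction x using QuotientGroup.induction_on with
    | H g =>
      change (QuotientGroup.mk (z * g) : G ⧸ H) = _
      rw [hz, QuotientGroup.eq]
      simpa using hzH
  have h1 := kap_mul φ z z x
  rw [hz2, kap_one, hx] at h1
  have : (2 : ℂ) * kap φ z x = 0 := by rw [two_mul]; exact h1.symm
  simpa using this

theorem kap_pow (φ : Additive H →+ ℂ) (g : G) (n : ℕ) (x : G ⧸ H) :
    kap φ (g ^ n) x = ∑ i ∈ Finset.range n, kap φ g (g ^ i • x) := by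
  induction n with
  | zero => simp [kap_one]
  | succ n ih => rw [pow_succ', kap_mul, ih, Finset.sum_range_succ, add_comm]

end Cocycle

section CycSum

variable {G : Type*} [Group G] {X : Type*} [MulAction G X]

/-- the operator `v ↦ ∑_{i<n} v(g^i x)`. -/
def cycSum (g : G) (n : ℕ) : (X → ℂ) →ₗ[ℂ] (X → ℂ) where
  toFun v x := ∑ i ∈ Finset.range n, v (g ^ i • x)
  map_add' v w := by ext x; simp [Finset.sum_add_distrib]
  map_smul' a v := by ext x; simp [Finset.mul_sum]

theorem cycSum_apply (g : G) (n : ℕ) (v : X → ℂ) (x : X) :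
    cycSum g n v x = ∑ i ∈ Finset.range n, v (g ^ i • x) := rfl

theorem cycSum_shift (g : G) (n : ℕ) (hn : ∀ x : X, g ^ n • x = x) (v : X → ℂ) :
    cycSum g n (fun x ↦ v (g • x) - v x) = 0 := by
  ext x
  rw [cycSum_apply]
  have : ∀ i, v (g • g ^ i • x) - v (g ^ i • x) = v (g ^ (i + 1) • x) - v (g ^ i • x) := by
    intro i; rw [pow_succ', mul_smul]
  simp_rw [this]
  rw [Finset.sum_range_sub (fun i ↦ v (g ^ i • x))]
  simp [hn]

/-- number of orbits of `g` on `X`. -/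
noncomputable def orb (g : G) (X : Type*) [MulAction G X] : ℕ :=
  Nat.card (MulAction.orbitRel.Quotient (Subgroup.zpowers g) X)

theorem finrank_ker_cycSum_add_orb_le [Finite X] (g : G) (n : ℕ) (hn : 0 < n) :
    Module.finrank ℂ (LinearMap.ker (cycSum (X := X) g n)) + orb g X ≤ Nat.card X := by
  classical
  have := Fintype.ofFinite X
  let O := MulAction.orbitRel.Quotient (Subgroup.zpowers g) X
  have : Finite O := Quotient.finite _
  have := Fintype.ofFinite O
  let π : X → O := Quotient.mk''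
  have hπ : ∀ (i : ℕ) (x : X), π (g ^ i • x) = π x := by
    intro i x
    apply Quotient.sound
    exact ⟨⟨g ^ i, ⟨i, by simp⟩⟩, rfl⟩
  let Φ : (LinearMap.ker (cycSum (X := X) g n)) × (O → ℂ) →ₗ[ℂ] (X → ℂ) :=
    { toFun := fun p x ↦ (p.1 : X → ℂ) x + p.2 (π x)
      map_add' := fun p q ↦ by ext x; simp; ring
      map_smul' := fun a p ↦ by ext x; simp; ring }
  have hΦ : Function.Injective Φ := by
    rw [injective_iff_map_eq_zero]
    rintro ⟨a, w⟩ h
    have h1 : ∀ x, (a : X → ℂ) x + w (π x) = 0 := fun x ↦ congrFun h x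
    have h2 : ∀ x, w (π x) = 0 := by
      intro x
      have ha : cycSum g n (a : X → ℂ) x = 0 := by
        have := a.2
        rw [LinearMap.mem_ker] at this
        exact congrFun this x
      rw [cycSum_apply] at ha
      have h3 : ∑ i ∈ Finset.range n, ((a : X → ℂ) (g ^ i • x) + w (π (g ^ i • x))) = 0 :=
        Finset.sum_eq_zero fun i _ ↦ h1 _
      rw [Finset.sum_add_distrib, ha, zero_add] at h3
      simp only [hπ, Finset.sum_const, Finset.card_range, nsmul_eq_mul] at h3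
      have hn' : (n : ℂ) ≠ 0 := by exact_mod_cast hn.ne'
      exact (mul_eq_zero.mp h3).resolve_left hn'
    have hw : w = 0 := by
      funext o
      obtain ⟨x, rfl⟩ := Quotient.exists_rep o
      exact h2 x
    have ha : a = 0 := by
      apply Subtype.ext
      funext x
      have := h1 x
      rw [h2, add_zero] at this
      exact this
    rw [ha, hw]; rfl
  have h4 := LinearMap.finrank_le_finrank_of_injective hΦ
  rw [Module.finrank_prod, Module.finrank_fintype_fun_eq_card,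
    Module.finrank_fintype_fun_eq_card] at h4
  rw [Nat.card_eq_fintype_card, orb, Nat.card_eq_fintype_card]
  exact h4

variable (X) in
/-- the map measuring the failure of the parabolic condition. -/
def parMap (S T : G) (n : ℕ) :
    (LinearMap.ker (cycSum (X := X) S 2)) × (LinearMap.ker (cycSum (X := X) (S * T) 3)) →ₗ[ℂ]
      (X → ℂ) :=
  (cycSum T n) ∘ₗ
    ((Submodule.subtype _) ∘ₗ (LinearMap.snd ℂ _ _) - (Submodule.subtype _) ∘ₗ (LinearMap.fst ℂ _ _))

theorem parMap_apply (S T : G) (n : ℕ) (a : LinearMap.ker (cycSum (X := X) S 2))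
    (b : LinearMap.ker (cycSum (X := X) (S * T) 3)) :
    parMap X S T n (a, b) = cycSum T n ((b : X → ℂ) - (a : X → ℂ)) := rfl

theorem orb_le_finrank_range_parMap [Finite X] [MulAction.IsPretransitive G X] [Nonempty X]
    (S T : G) (hgen : Subgroup.closure {S, T} = ⊤) (n : ℕ) (hn : 0 < n)
    (hS : ∀ x : X, S ^ 2 • x = x) (hT : ∀ x : X, T ^ n • x = x) :
    orb T X ≤ Module.finrank ℂ (LinearMap.range (parMap X S T n)) + 1 := by
  classical
  have := Fintype.ofFinite X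
  set R := LinearMap.range (parMap X S T n) with hR
  -- closure under the group action
  have hS' : ∀ v : X → ℂ, cycSum T n (fun x ↦ v (S • x) - v x) ∈ R := by
    intro v
    have ha : -(fun x ↦ v (S • x) - v x) ∈ LinearMap.ker (cycSum (X := X) S 2) := by
      rw [LinearMap.mem_ker, map_neg, cycSum_shift S 2 hS, neg_zero]
    refine ⟨(⟨_, ha⟩, 0), ?_⟩
    rw [parMap_apply]
    simp
  have hT' : ∀ v : X → ℂ, cycSum T n (fun x ↦ v (T • x) - v x) ∈ R := by
    intro v
    rw [cycSum_shift T n hT]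
    exact zero_mem _
  let K : Subgroup G :=
    { carrier := {g | ∀ v : X → ℂ, cycSum T n (fun x ↦ v (g • x) - v x) ∈ R}
      mul_mem' := by
        intro g g' hg hg' v
        have h1 := hg' (fun x ↦ v (g • x))
        have h2 := hg v
        have e : (fun x ↦ v ((g * g') • x) - v x) =
            (fun x ↦ v (g • g' • x) - v (g • x)) + (fun x ↦ v (g • x) - v x) := by
          ext x; simp [mul_smul]
        rw [e, map_add]
        exact add_mem h1 h2
      one_mem' := by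
        intro v
        have e : (fun x ↦ v ((1 : G) • x) - v x) = 0 := by ext x; simp
        rw [e, map_zero]; exact zero_mem _
      inv_mem' := by
        intro g hg v
        have h1 := hg (fun x ↦ v (g⁻¹ • x))
        have e : (fun x ↦ v (g⁻¹ • x) - v x) = -(fun x ↦ v (g⁻¹ • g • x) - v (g⁻¹ • x)) := by
          ext x; simp
        rw [e, map_neg]
        exact neg_mem h1 }
  have hK : K = ⊤ := by
    rw [eq_top_iff, ← hgen, Subgroup.closure_le]
    rintro g (rfl | rfl)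
    · exact hS'
    · exact hT'
  have hall : ∀ (g : G) (v : X → ℂ), cycSum T n (fun x ↦ v (g • x) - v x) ∈ R := by
    intro g
    have : g ∈ K := by rw [hK]; trivial
    exact this
  obtain ⟨x₀⟩ := (inferInstance : Nonempty X)
  set e₀ : X → ℂ := cycSum T n (Pi.single x₀ 1) with he₀
  have hrange : LinearMap.range (cycSum (X := X) T n) ≤ R ⊔ Submodule.span ℂ {e₀} := by
    rintro _ ⟨v, rfl⟩
    have hv : v = ∑ x, v x • (Pi.single x (1 : ℂ) : X → ℂ) := by
      ext y
      simp [Finset.sum_apply, Pi.single_apply]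
    rw [hv, map_sum]
    refine sum_mem fun x _ ↦ ?_
    rw [map_smul]
    refine Submodule.smul_mem _ _ ?_
    obtain ⟨g, hg⟩ := MulAction.exists_smul_eq G x x₀
    have h1 := hall g (Pi.single x₀ 1)
    have e : (fun y ↦ (Pi.single x₀ (1 : ℂ) : X → ℂ) (g • y) - (Pi.single x₀ (1 : ℂ) : X → ℂ) y) =
        Pi.single x (1 : ℂ) - Pi.single x₀ (1 : ℂ) := by
      ext y
      simp only [Pi.single_apply, Pi.sub_apply]
      congr 1
      rw [← hg]
      simp
    rw [e, map_sub] at h1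
    have h2 : cycSum T n (Pi.single x (1 : ℂ)) =
        (cycSum T n (Pi.single x (1 : ℂ)) - cycSum T n (Pi.single x₀ (1 : ℂ))) + e₀ := by
      rw [he₀]; abel
    rw [h2]
    exact add_mem (Submodule.mem_sup_left h1)
      (Submodule.mem_sup_right (Submodule.mem_span_singleton_self e₀))
  have h1 := Submodule.finrank_mono hrange
  have h2 := Submodule.finrank_add_le_finrank_add_finrank R (Submodule.span ℂ {e₀})
  have h3 : Module.finrank ℂ (Submodule.span ℂ {e₀}) ≤ 1 := by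
    simpa using finrank_span_le_card (R := ℂ) ({e₀} : Set (X → ℂ))
  have h4 := LinearMap.finrank_range_add_finrank_ker (cycSum (X := X) T n)
  have h5 := finrank_ker_cycSum_add_orb_le (X := X) T n hn
  rw [Module.finrank_fintype_fun_eq_card] at h4
  rw [Nat.card_eq_fintype_card] at h5
  omega

end CycSum

theorem finrank_add_finrank_range_le {V P W : Type*} [AddCommGroup V] [Module ℂ V]
    [FiniteDimensional ℂ V] [AddCommGroup P] [Module ℂ P] [AddCommGroup W] [Module ℂ W]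
    (A B : Submodule ℂ V)
    (f : A × B →ₗ[ℂ] W) (Ψ : P →ₗ[ℂ] (A × B) × ℂ) (hΨ : Function.Injective Ψ)
    (hker : ∀ p, f (Ψ p).1 = 0) :
    Module.finrank ℂ P + Module.finrank ℂ (LinearMap.range f) ≤
      Module.finrank ℂ A + Module.finrank ℂ B + 1 := by
  let Ψ' : P →ₗ[ℂ] (LinearMap.ker f) × ℂ :=
    LinearMap.prod (LinearMap.codRestrict _ ((LinearMap.fst ℂ _ _) ∘ₗ Ψ)
      (fun p ↦ LinearMap.mem_ker.mpr (hker p)))
      ((LinearMap.snd ℂ _ _) ∘ₗ Ψ)
  have hΨ' : Function.Injective Ψ' := by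
    intro p q hpq
    apply hΨ
    refine Prod.ext ?_ ?_
    · exact congrArg Subtype.val (congrArg Prod.fst hpq)
    · have h2 : (Ψ' p).2 = (Ψ' q).2 := by rw [hpq]
      exact h2
  have h1 := LinearMap.finrank_le_finrank_of_injective hΨ'
  rw [Module.finrank_prod, Module.finrank_self] at h1
  have h2 := LinearMap.finrank_range_add_finrank_ker f
  rw [Module.finrank_prod] at h2
  omega

section Main

open ModularGroup

theorem ST_pow_three : ((S * T) ^ 3 : SL(2, ℤ)) = -1 := by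
  apply Subtype.ext
  rw [Matrix.SpecialLinearGroup.coe_pow, Matrix.SpecialLinearGroup.coe_mul, coe_S, coe_T,
    Matrix.SpecialLinearGroup.coe_neg, Matrix.SpecialLinearGroup.coe_one]
  decide

theorem S_pow_two : (S ^ 2 : SL(2, ℤ)) = -1 := by
  apply Subtype.ext
  rw [Matrix.SpecialLinearGroup.coe_pow, coe_S, Matrix.SpecialLinearGroup.coe_neg,
    Matrix.SpecialLinearGroup.coe_one]
  decide

variable (Γ : Subgroup SL(2, ℤ))

theorem neg_one_smul_eq (hΓ : (-1 : SL(2, ℤ)) ∈ Γ) (x : SL(2, ℤ) ⧸ Γ) :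
    (-1 : SL(2, ℤ)) • x = x := by
  induction x using QuotientGroup.induction_on with
  | H g =>
    change (QuotientGroup.mk (-1 * g) : SL(2, ℤ) ⧸ Γ) = _
    rw [QuotientGroup.eq]
    have : (-1 * g)⁻¹ * g = -1 := by
      rw [mul_inv_rev]
      simp
    rw [this]
    exact hΓ

theorem kap_neg_one (hΓ : (-1 : SL(2, ℤ)) ∈ Γ) (φ : Additive Γ →+ ℂ) (x : SL(2, ℤ) ⧸ Γ) :
    kap φ (-1 : SL(2, ℤ)) x = 0 :=
  kap_central φ (-1) (fun g ↦ by simp) (by simp) hΓ x

theorem coe_T_pow (n : ℕ) : ((T ^ n : SL(2, ℤ)) : Matrix (Fin 2) (Fin 2) ℤ) =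
    !![1, (n : ℤ); 0, 1] := by
  have := ModularGroup.coe_T_zpow (n : ℤ)
  simpa using this

theorem kap_T_pow {φ : Additive Γ →+ ℂ} (hφ : IsParabolicHom Γ φ) (n : ℕ)
    (hn : ∀ x : SL(2, ℤ) ⧸ Γ, T ^ n • x = x) (x : SL(2, ℤ) ⧸ Γ) : kap φ (T ^ n) x = 0 := by
  unfold kap
  apply hφ
  simp only [hn]
  rw [Matrix.SpecialLinearGroup.coe_mul, Matrix.trace_mul_comm, ← Matrix.SpecialLinearGroup.coe_mul,
    mul_inv_cancel_left, coe_T_pow]
  simp [Matrix.trace_fin_two]

/-- The main injection. -/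
noncomputable def bigMap (hΓ : (-1 : SL(2, ℤ)) ∈ Γ) :
    (parabolicHoms ℂ Γ ℂ) × (SL(2, ℤ) ⧸ Γ → ℂ) →ₗ[ℂ]
      ((LinearMap.ker (cycSum (X := SL(2, ℤ) ⧸ Γ) S 2)) ×
        (LinearMap.ker (cycSum (X := SL(2, ℤ) ⧸ Γ) (S * T) 3))) × ℂ where
  toFun p := ((⟨fun x ↦ kap (p.1 : Additive Γ →+ ℂ) S x + (p.2 (S • x) - p.2 x), by
      rw [LinearMap.mem_ker]
      have h1 := cycSum_shift (X := SL(2, ℤ) ⧸ Γ) S 2
        (fun x ↦ by rw [S_pow_two, neg_one_smul_eq Γ hΓ]) p.2
      have h2 : cycSum S 2 (fun x ↦ kap (p.1 : Additive Γ →+ ℂ) S x) = 0 := by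
        ext x
        rw [cycSum_apply, ← kap_pow, S_pow_two, kap_neg_one Γ hΓ]; rfl
      have h3 : (fun x ↦ kap (p.1 : Additive Γ →+ ℂ) S x + (p.2 (S • x) - p.2 x)) =
        (fun x ↦ kap (p.1 : Additive Γ →+ ℂ) S x) + (fun x ↦ p.2 (S • x) - p.2 x) := rfl
      rw [h3, map_add, h1, h2, add_zero]⟩,
    ⟨fun x ↦ kap (p.1 : Additive Γ →+ ℂ) (S * T) x + (p.2 ((S * T) • x) - p.2 x), by
      rw [LinearMap.mem_ker]
      have h1 := cycSum_shift (X := SL(2, ℤ) ⧸ Γ) (S * T) 3
        (fun x ↦ by rw [ST_pow_three, neg_one_smul_eq Γ hΓ]) p.2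
      have h2 : cycSum (S * T) 3 (fun x ↦ kap (p.1 : Additive Γ →+ ℂ) (S * T) x) = 0 := by
        ext x
        rw [cycSum_apply, ← kap_pow, ST_pow_three, kap_neg_one Γ hΓ]; rfl
      have h3 : (fun x ↦ kap (p.1 : Additive Γ →+ ℂ) (S * T) x + (p.2 ((S * T) • x) - p.2 x)) =
        (fun x ↦ kap (p.1 : Additive Γ →+ ℂ) (S * T) x) + (fun x ↦ p.2 ((S * T) • x) - p.2 x) := rfl
      rw [h3, map_add, h1, h2, add_zero]⟩), p.2 (QuotientGroup.mk 1))
  map_add' p q := by
    refine Prod.ext (Prod.ext (Subtype.ext (funext fun x ↦ ?_)) (Subtype.ext (funext fun x ↦ ?_))) rfl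
    · simp [kap_add]; ring
    · simp [kap_add]; ring
  map_smul' a p := by
    refine Prod.ext (Prod.ext (Subtype.ext (funext fun x ↦ ?_)) (Subtype.ext (funext fun x ↦ ?_))) rfl
    · simp [kap_smul]; ring
    · simp [kap_smul]; ring

theorem bigMap_injective (hΓ : (-1 : SL(2, ℤ)) ∈ Γ) : Function.Injective (bigMap Γ hΓ) := by
  rw [injective_iff_map_eq_zero]
  rintro ⟨φ, v⟩ h
  have hS : ∀ x, kap (φ : Additive Γ →+ ℂ) S x + (v (S • x) - v x) = 0 :=
    fun x ↦ congrFun (congrArg (fun q ↦ (q.1.1 : SL(2, ℤ) ⧸ Γ → ℂ)) h) x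
  have hU : ∀ x, kap (φ : Additive Γ →+ ℂ) (S * T) x + (v ((S * T) • x) - v x) = 0 :=
    fun x ↦ congrFun (congrArg (fun q ↦ (q.1.2 : SL(2, ℤ) ⧸ Γ → ℂ)) h) x
  have h0 : v (QuotientGroup.mk 1) = 0 := congrArg (fun q ↦ q.2) h
  have hT : ∀ x, kap (φ : Additive Γ →+ ℂ) T x + (v (T • x) - v x) = 0 := by
    intro x
    have h1 := hU x
    rw [kap_mul, mul_smul] at h1
    have h2 := hS (T • x)
    linear_combination h1 - h2
  let K : Subgroup SL(2, ℤ) :=
    { carrier := {g | ∀ x, kap (φ : Additive Γ →+ ℂ) g x + (v (g • x) - v x) = 0}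
      mul_mem' := by
        intro g g' hg hg' x
        rw [kap_mul, mul_smul]
        linear_combination hg (g' • x) + hg' x
      one_mem' := by intro x; simp [kap_one]
      inv_mem' := by
        intro g hg x
        have h1 := kap_mul (φ : Additive Γ →+ ℂ) g g⁻¹ x
        rw [mul_inv_cancel, kap_one] at h1
        have h2 := hg (g⁻¹ • x)
        rw [smul_inv_smul] at h2
        linear_combination -h1 - h2 }
  have hK : K = ⊤ := by
    rw [eq_top_iff, ← SpecialLinearGroup.SL2Z_generators, Subgroup.closure_le]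
    rintro g (rfl | rfl)
    · exact hS
    · exact hT
  have hall : ∀ (g : SL(2, ℤ)) (x : SL(2, ℤ) ⧸ Γ),
      kap (φ : Additive Γ →+ ℂ) g x + (v (g • x) - v x) = 0 := by
    intro g
    have : g ∈ K := by rw [hK]; trivial
    exact this
  have hφ : (φ : Additive Γ →+ ℂ) = 0 := by
    refine AddMonoidHom.ext fun γ' ↦ ?_
    obtain ⟨γ, rfl⟩ := Additive.ofMul.surjective γ'
    have h1 := hall γ (QuotientGroup.mk 1)
    have hx : (γ : SL(2, ℤ)) • (QuotientGroup.mk 1 : SL(2, ℤ) ⧸ Γ) = QuotientGroup.mk 1 := by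
      change (QuotientGroup.mk ((γ : SL(2, ℤ)) * 1) : SL(2, ℤ) ⧸ Γ) = _
      rw [QuotientGroup.eq]
      simp
    rw [kap_apply_of_mem, hx, sub_self, add_zero] at h1
    rw [h1]; rfl
  have hv : v = 0 := by
    funext x
    obtain ⟨g, hg⟩ := MulAction.exists_smul_eq SL(2, ℤ) (QuotientGroup.mk 1 : SL(2, ℤ) ⧸ Γ) x
    have h1 := hall g (QuotientGroup.mk 1)
    rw [hφ, hg, h0] at h1
    have h2 : kap (0 : Additive Γ →+ ℂ) g (QuotientGroup.mk 1 : SL(2, ℤ) ⧸ Γ) = 0 := rfl
    rw [h2] at h1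
    simpa using h1
  refine Prod.ext (Subtype.ext hφ) hv

theorem finiteDimensional_parabolicHoms (hΓ : (-1 : SL(2, ℤ)) ∈ Γ) [Finite (SL(2, ℤ) ⧸ Γ)] :
    FiniteDimensional ℂ (parabolicHoms ℂ Γ ℂ) := by
  have h1 : FiniteDimensional ℂ ((parabolicHoms ℂ Γ ℂ) × (SL(2, ℤ) ⧸ Γ → ℂ)) :=
    FiniteDimensional.of_injective _ (bigMap_injective Γ hΓ)
  exact FiniteDimensional.of_injective (LinearMap.inl ℂ (parabolicHoms ℂ Γ ℂ) (SL(2, ℤ) ⧸ Γ → ℂ))
    LinearMap.inl_injective

/-- Upper bound for the dimension of parabolic homomorphisms. -/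
theorem finrank_parabolicHoms_le (hΓ : (-1 : SL(2, ℤ)) ∈ Γ) [Finite (SL(2, ℤ) ⧸ Γ)] :
    Module.finrank ℂ (parabolicHoms ℂ Γ ℂ) + orb S (SL(2, ℤ) ⧸ Γ) + orb (S * T) (SL(2, ℤ) ⧸ Γ) +
      orb T (SL(2, ℤ) ⧸ Γ) ≤ Nat.card (SL(2, ℤ) ⧸ Γ) + 2 := by
  classical
  have := finiteDimensional_parabolicHoms Γ hΓ
  have := Fintype.ofFinite (SL(2, ℤ) ⧸ Γ)
  -- an exponent for `T`
  obtain ⟨n, hn, hT⟩ : ∃ n : ℕ, 0 < n ∧ ∀ x : SL(2, ℤ) ⧸ Γ, T ^ n • x = x := by
    refine ⟨orderOf (MulAction.toPermHom SL(2, ℤ) (SL(2, ℤ) ⧸ Γ) T), orderOf_pos _, fun x ↦ ?_⟩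
    have h1 := pow_orderOf_eq_one (MulAction.toPermHom SL(2, ℤ) (SL(2, ℤ) ⧸ Γ) T)
    rw [← map_pow] at h1
    exact DFunLike.congr_fun h1 x
  have hS : ∀ x : SL(2, ℤ) ⧸ Γ, S ^ 2 • x = x := fun x ↦ by rw [S_pow_two, neg_one_smul_eq Γ hΓ]
  have hlow := orb_le_finrank_range_parMap (X := SL(2, ℤ) ⧸ Γ) S T
    SpecialLinearGroup.SL2Z_generators n hn hS hT
  -- the image of `bigMap` lies in `ker × ℂ`
  have hker : ∀ p, (bigMap Γ hΓ p).1 ∈ LinearMap.ker (parMap (SL(2, ℤ) ⧸ Γ) S T n) := by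
    rintro ⟨φ, v⟩
    rw [LinearMap.mem_ker]
    change cycSum T n _ = 0
    have e : ((fun x ↦ kap (φ : Additive Γ →+ ℂ) (S * T) x + (v ((S * T) • x) - v x)) -
        (fun x ↦ kap (φ : Additive Γ →+ ℂ) S x + (v (S • x) - v x))) =
        (fun x ↦ (fun y ↦ kap (φ : Additive Γ →+ ℂ) S y + v (S • y)) (T • x) -
          (fun y ↦ kap (φ : Additive Γ →+ ℂ) S y + v (S • y)) x) +
        (fun x ↦ kap (φ : Additive Γ →+ ℂ) T x) := by
      ext x
      simp only [Pi.sub_apply, Pi.add_apply, kap_mul, mul_smul]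
      ring
    have e2 : cycSum T n (fun x ↦ kap (φ : Additive Γ →+ ℂ) T x) = 0 := by
      ext x
      rw [cycSum_apply, ← kap_pow, kap_T_pow Γ φ.2 n hT]; rfl
    have e3 := cycSum_shift T n hT (fun y ↦ kap (φ : Additive Γ →+ ℂ) S y + v (S • y))
    have e4 := congrArg (cycSum (X := SL(2, ℤ) ⧸ Γ) T n) e
    rw [map_add, e2, e3, add_zero] at e4
    exact e4
  have h1 := finrank_add_finrank_range_le _ _ (parMap (SL(2, ℤ) ⧸ Γ) S T n) (bigMap Γ hΓ)
    (bigMap_injective Γ hΓ) (fun p ↦ LinearMap.mem_ker.mp (hker p))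
  rw [Module.finrank_prod, Module.finrank_fintype_fun_eq_card] at h1
  have h3 := finrank_ker_cycSum_add_orb_le (X := SL(2, ℤ) ⧸ Γ) S 2 (by norm_num)
  have h4 := finrank_ker_cycSum_add_orb_le (X := SL(2, ℤ) ⧸ Γ) (S * T) 3 (by norm_num)
  rw [Nat.card_eq_fintype_card] at h3 h4 ⊢
  omega

end Main

end Fermat.Agent.Period
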