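import Fermat.Agent.Period.Parabolic
import Fermat.Agent.Period.UpperBound

set_option autoImplicit false

open UpperHalfPlane CongruenceSubgroup ModularCurve.Period ModularGroup
open scoped MatrixGroups

namespace Fermat.Agent.Period

theorem neg_one_mem_Gamma0 (N : ℕ) : (-1 : SL(2, ℤ)) ∈ Gamma0 N := by
  simp [Gamma0_mem]

theorem finiteDimensional_cuspForm (N : ℕ) [NeZero N] :
    FiniteDimensional ℂ (CuspForm (Gamma0 N) 2) := by
  have := finiteDimensional_parabolicHoms (Gamma0 N) (neg_one_mem_Gamma0 N)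
  let f : CuspForm (Gamma0 N) 2 × CuspForm (Gamma0 N) 2 →ₗ[ℂ] parabolicHoms ℂ (Gamma0 N) ℂ :=
    LinearMap.codRestrict _ (ModularCurve.periodHomPair N)
      (fun p ↦ range_periodHomPair_le N ⟨p, rfl⟩)
  have hf : Function.Injective f := by
    intro p q hpq
    exact periodHomPair_injective N (congrArg Subtype.val hpq)
  have h1 : FiniteDimensional ℂ (CuspForm (Gamma0 N) 2 × CuspForm (Gamma0 N) 2) :=
    FiniteDimensional.of_injective f hf
  exact FiniteDimensional.of_injective
    (LinearMap.inl ℂ (CuspForm (Gamma0 N) 2) (CuspForm (Gamma0 N) 2)) LinearMap.inl_injective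

theorem finrank_range_periodHomPair (N : ℕ) [NeZero N] :
    Module.finrank ℂ (LinearMap.range (ModularCurve.periodHomPair N)) =
      2 * Module.finrank ℂ (CuspForm (Gamma0 N) 2) := by
  have := finiteDimensional_cuspForm N
  rw [LinearMap.finrank_range_of_inj (periodHomPair_injective N), Module.finrank_prod]
  ring

/-- Upper bound for the dimension of `S₂(Γ₀(N))`. -/
theorem two_mul_finrank_cuspForm_le (N : ℕ) [NeZero N] :
    2 * Module.finrank ℂ (CuspForm (Gamma0 N) 2) + orb S (SL(2, ℤ) ⧸ Gamma0 N) +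
      orb (S * T) (SL(2, ℤ) ⧸ Gamma0 N) + orb T (SL(2, ℤ) ⧸ Gamma0 N) ≤
      Nat.card (SL(2, ℤ) ⧸ Gamma0 N) + 2 := by
  have := finiteDimensional_parabolicHoms (Gamma0 N) (neg_one_mem_Gamma0 N)
  have h1 := finrank_parabolicHoms_le (Gamma0 N) (neg_one_mem_Gamma0 N)
  have h2 := Submodule.finrank_mono (range_periodHomPair_le N)
  rw [finrank_range_periodHomPair] at h2
  omega

/-- Eichler–Shimura, given the lower bound for the dimension of `S₂(Γ₀(N))`. -/
theorem eichlerShimura_of_lower_bound (N : ℕ) [NeZero N]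
    (lb : Nat.card (SL(2, ℤ) ⧸ Gamma0 N) + 2 ≤
      2 * Module.finrank ℂ (CuspForm (Gamma0 N) 2) + orb S (SL(2, ℤ) ⧸ Gamma0 N) +
      orb (S * T) (SL(2, ℤ) ⧸ Gamma0 N) + orb T (SL(2, ℤ) ⧸ Gamma0 N)) :
    Function.Injective (ModularCurve.periodHomPair N)
      ∧ LinearMap.range (ModularCurve.periodHomPair N)
          = ModularCurve.Period.parabolicHoms ℂ (CongruenceSubgroup.Gamma0 N) ℂ := by
  refine ⟨periodHomPair_injective N, ?_⟩
  have := finiteDimensional_parabolicHoms (Gamma0 N) (neg_one_mem_Gamma0 N)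
  have h1 := finrank_parabolicHoms_le (Gamma0 N) (neg_one_mem_Gamma0 N)
  apply Submodule.eq_of_le_of_finrank_le (range_periodHomPair_le N)
  rw [finrank_range_periodHomPair]
  omega

end Fermat.Agent.Period
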