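import Fermat.Agent.Period.Primitive

set_option autoImplicit false

open UpperHalfPlane Filter Topology Function CongruenceSubgroup
open scoped MatrixGroups ModularForm Manifold Pointwise

namespace Fermat.Agent.Period

open ModularGroup in
/-- Maximum principle: a weight two cusp form all of whose periods are purely imaginary is zero. -/
theorem eq_zero_of_re_period_eq_zero {N : ℕ} [NeZero N] (k : CuspForm (Gamma0 N) 2)
    (hk : ∀ γ : Gamma0 N, (ModularCurve.periodMap N k (Additive.ofMul γ)).re = 0) : k = 0 := by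
  classical
  obtain ⟨h, hh, H⟩ := exists_primitive_slash_qParam N
  obtain ⟨hK1, hK2, hK3, hK4⟩ := prim_spec N k
  set K := prim N k with hK
  -- invariance of the real part
  have hinv : ∀ (γ : SL(2, ℤ)) (_ : γ ∈ Gamma0 N) (z : ℍ), (K (γ • z)).re = (K z).re := by
    intro γ hγ z
    have h1 := periodMap_apply k (prim_spec N k) ⟨γ, hγ⟩ z
    have h2 := hk ⟨γ, hγ⟩
    rw [h1, Complex.sub_re, sub_eq_zero] at h2
    exact h2
  -- expansions at the cusps
  have hΦ : ∀ δ : SL(2, ℤ), ∃ Φ : ℂ → ℂ, DifferentiableOn ℂ Φ (Metric.ball 0 1) ∧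
      ∀ τ : ℍ, K (δ • τ) = Φ (Periodic.qParam h τ) := by
    intro δ
    obtain ⟨Φ, hΦ, hΦ0, hprim⟩ := H k δ
    have hKprim : IsPrimitive K k := hK1
    obtain ⟨c, hc⟩ := (hKprim.comp_smul δ).exists_sub_eq_const hprim
    refine ⟨fun q ↦ Φ q + c, hΦ.add_const c, fun τ ↦ ?_⟩
    rw [← hc τ]; ring
  choose Φ hΦd hΦ using hΦ
  let X := SL(2, ℤ) ⧸ Gamma0 N
  haveI : Finite X := inferInstance
  let δ : X → SL(2, ℤ) := fun x ↦ (Quotient.out x)⁻¹
  have hrep : ∀ g : SL(2, ℤ), ∃ x : X, ∃ γ ∈ Gamma0 N, g = γ * δ x := by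
    intro g
    refine ⟨QuotientGroup.mk g⁻¹, ?_⟩
    obtain ⟨γ, hγ⟩ := QuotientGroup.mk_out_eq_mul (Gamma0 N) g⁻¹
    refine ⟨γ, γ.2, ?_⟩
    have : Quotient.out (QuotientGroup.mk g⁻¹ : X) = g⁻¹ * γ := hγ
    simp only [δ]
    rw [this]
    group
  set r : ℝ := Real.exp (-2 * Real.pi * (1/2) / h) with hr
  have hr1 : r < 1 := by
    rw [hr, Real.exp_lt_one_iff]
    have := Real.pi_pos
    apply div_neg_of_neg_of_pos _ hh
    nlinarith
  have hr0 : 0 ≤ r := (Real.exp_pos _).le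
  let E : X → ℂ → ℂ := fun x q ↦ Complex.exp (Φ (δ x) q)
  have hE : ∀ x, DifferentiableOn ℂ (E x) (Metric.ball 0 1) := fun x ↦ (hΦd (δ x)).cexp
  -- comparison with the small disc
  have hcomp : ∀ (x : X) (q : ℂ), q ∈ Metric.ball (0 : ℂ) 1 →
      ∃ (y : X) (q' : ℂ), q' ∈ Metric.closedBall (0 : ℂ) r ∧ ‖E x q‖ = ‖E y q'‖ := by
    intro x q hq
    rcases eq_or_ne q 0 with rfl | hq0
    · exact ⟨x, 0, by simpa using hr0, rfl⟩
    · rw [mem_ball_zero_iff] at hq
      have hpos := Periodic.im_invQParam_pos_of_norm_lt_one hh hq hq0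
      let τ : ℍ := ⟨Periodic.invQParam h q, hpos⟩
      have hτ : Periodic.qParam h τ = q := Periodic.qParam_right_inv hh.ne' hq0
      obtain ⟨γ, hγ, -⟩ := exists_one_half_le_im_smul_and_norm_denom_le τ
      obtain ⟨y, g, hg, hgy⟩ := hrep (δ x * γ⁻¹)
      refine ⟨y, Periodic.qParam h ((γ • τ : ℍ) : ℂ), ?_, ?_⟩
      · rw [mem_closedBall_zero_iff, Periodic.norm_qParam, hr, Real.exp_le_exp]
        have := Real.pi_pos
        apply div_le_div_of_nonneg_right _ hh.le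
        have h2 : (1/2 : ℝ) ≤ (((γ • τ : ℍ) : ℂ)).im := hγ
        nlinarith
      · simp only [E]
        rw [← hτ, ← hΦ, ← hΦ, Complex.norm_exp, Complex.norm_exp]
        have h3 : δ x • τ = (g * δ y) • (γ • τ) := by
          rw [← hgy, mul_smul, inv_smul_smul]
        rw [h3, mul_smul, hinv g hg]
  -- there is a global maximum on the small discs
  have hmax : ∀ x : X, ∃ q ∈ Metric.closedBall (0 : ℂ) r,
      ∀ q' ∈ Metric.closedBall (0 : ℂ) r, ‖E x q'‖ ≤ ‖E x q‖ := by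
    intro x
    have hcont : ContinuousOn (fun q ↦ ‖E x q‖) (Metric.closedBall (0 : ℂ) r) :=
      ((hE x).continuousOn.mono (Metric.closedBall_subset_ball hr1)).norm
    obtain ⟨q, hq, hqmax⟩ := (isCompact_closedBall (0 : ℂ) r).exists_isMaxOn
      ⟨0, by simpa using hr0⟩ hcont
    exact ⟨q, hq, fun q' hq' ↦ hqmax hq'⟩
  choose qm hqm hqmax using hmax
  haveI : Nonempty X := ⟨QuotientGroup.mk 1⟩
  obtain ⟨x₀, hx₀⟩ := Finite.exists_max (fun x : X ↦ ‖E x (qm x)‖)
  have hglob : IsMaxOn (norm ∘ E x₀) (Metric.ball 0 1) (qm x₀) := by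
    intro q hq
    obtain ⟨y, q', hq', heq⟩ := hcomp x₀ q hq
    change ‖E x₀ q‖ ≤ ‖E x₀ (qm x₀)‖
    rw [heq]
    exact (hqmax y q' hq').trans (hx₀ y)
  have hconst := Complex.eqOn_of_isPreconnected_of_isMaxOn_norm
    (convex_ball (0 : ℂ) 1).isPreconnected Metric.isOpen_ball (hE x₀)
    (Metric.closedBall_subset_ball hr1 (hqm x₀)) hglob
  -- hence `k` vanishes identically
  have hk0 : ∀ z : ℍ, k z = 0 := by
    intro z
    -- `exp K` is constant
    have hexp : ∀ w : ℍ, Complex.exp (K w) = E x₀ (qm x₀) := by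
      intro w
      have h1 : K w = Φ (δ x₀) (Periodic.qParam h (((δ x₀)⁻¹ • w : ℍ) : ℂ)) := by
        rw [← hΦ, smul_inv_smul]
      have h2 : Periodic.qParam h (((δ x₀)⁻¹ • w : ℍ) : ℂ) ∈ Metric.ball (0 : ℂ) 1 := by
        rw [mem_ball_zero_iff]
        exact Periodic.norm_qParam_lt_one hh (UpperHalfPlane.im_pos _)
      rw [h1]
      exact hconst h2
    have h1 : HasDerivAt (fun w : ℂ ↦ Complex.exp ((K ∘ ofComplex) w))
        (Complex.exp ((K ∘ ofComplex) z) * k z) (z : ℂ) := (hK1 z).cexp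
    have h2 : (fun w : ℂ ↦ Complex.exp ((K ∘ ofComplex) w)) = fun _ ↦ E x₀ (qm x₀) := by
      funext w
      exact hexp (ofComplex w)
    rw [h2] at h1
    have h3 := h1.unique (hasDerivAt_const (z : ℂ) (E x₀ (qm x₀)))
    rcases mul_eq_zero.mp h3 with h4 | h4
    · exact absurd h4 (Complex.exp_ne_zero _)
    · exact h4
  ext z
  exact hk0 z

end Fermat.Agent.Period
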