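import Fermat.Agent.Period.ConjForm

set_option autoImplicit false

open UpperHalfPlane Filter Topology Function CongruenceSubgroup ModularCurve.Period
open scoped MatrixGroups ModularForm Manifold Pointwise ComplexConjugate

namespace Fermat.Agent.Period

open Matrix.SpecialLinearGroup

/-- An element of `SL(2, ℤ)` of trace `±2` is conjugate to an upper triangular one. -/
theorem exists_conj_lower_left_eq_zero (γ : SL(2, ℤ))
    (hγ : (γ : Matrix (Fin 2) (Fin 2) ℤ).trace ^ 2 = 4) :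
    ∃ δ : SL(2, ℤ), (δ⁻¹ * γ * δ) 1 0 = 0 := by
  obtain ⟨ε, hε, htr⟩ : ∃ ε : ℤ, ε ^ 2 = 1 ∧ (γ : Matrix (Fin 2) (Fin 2) ℤ).trace = 2 * ε := by
    have : ((γ : Matrix (Fin 2) (Fin 2) ℤ).trace - 2) * ((γ : Matrix (Fin 2) (Fin 2) ℤ).trace + 2)
        = 0 := by linear_combination hγ
    rcases mul_eq_zero.mp this with h | h
    · exact ⟨1, by norm_num, by linarith⟩
    · exact ⟨-1, by norm_num, by linarith⟩
  rw [Matrix.trace_fin_two] at htr
  have hdet : γ 0 0 * γ 1 1 - γ 0 1 * γ 1 0 = 1 := by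
    have := γ.det_coe
    rwa [Matrix.det_fin_two] at this
  rcases eq_or_ne (γ 1 0) 0 with hc0 | hc0
  · exact ⟨1, by simpa using hc0⟩
  · -- the vector `(d - ε, -c)` is an eigenvector
    have hg : 0 < Int.gcd (γ 1 1 - ε) (-γ 1 0) := by
      apply Nat.pos_of_ne_zero
      intro h
      rw [Int.gcd_eq_zero_iff] at h
      exact hc0 (by simpa using h.2)
    obtain ⟨g, x, y, hgpos, hxy, hx, hy⟩ := Int.exists_gcd_one' hg
    have hcop : IsCoprime x y := Int.isCoprime_iff_gcd_eq_one.mpr hxy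
    obtain ⟨δ, hδ0, hδ1⟩ := hcop.exists_SL2_col 0
    refine ⟨δ, ?_⟩
    have hmul : (δ⁻¹ * γ * δ) 1 0 = -(δ 1 0) * (γ 0 0 * δ 0 0 + γ 0 1 * δ 1 0) +
        (δ 0 0) * (γ 1 0 * δ 0 0 + γ 1 1 * δ 1 0) := by
      have e : ((δ⁻¹ * γ * δ : SL(2, ℤ)) : Matrix (Fin 2) (Fin 2) ℤ) =
          (δ : Matrix (Fin 2) (Fin 2) ℤ).adjugate * γ * δ := by
        rw [Matrix.SpecialLinearGroup.coe_mul, Matrix.SpecialLinearGroup.coe_mul,
          Matrix.SpecialLinearGroup.coe_inv]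
      rw [e, Matrix.adjugate_fin_two]
      simp [Matrix.mul_apply, Fin.sum_univ_two, Matrix.vecMul, dotProduct]
      ring
    rw [hmul, hδ0, hδ1]
    have h1 : (g : ℤ) * g * (-y * (γ 0 0 * x + γ 0 1 * y) + x * (γ 1 0 * x + γ 1 1 * y)) = 0 := by
      have e1 : (g : ℤ) * g * (-y * (γ 0 0 * x + γ 0 1 * y) + x * (γ 1 0 * x + γ 1 1 * y)) =
        -(y * g) * (γ 0 0 * (x * g) + γ 0 1 * (y * g)) +
          (x * g) * (γ 1 0 * (x * g) + γ 1 1 * (y * g)) := by ring
      rw [e1, ← hx, ← hy]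
      have h2 : γ 0 0 = 2 * ε - γ 1 1 := by linarith
      rw [h2] at hdet ⊢
      linear_combination (γ 1 0) * hdet - γ 1 0 * hε
    have hg0 : (g : ℤ) ≠ 0 := by exact_mod_cast hgpos.ne'
    rcases mul_eq_zero.mp h1 with h | h
    · exact absurd h (mul_ne_zero hg0 hg0)
    · exact h

theorem isParabolicHom_periodMap {N : ℕ} [NeZero N] (f : CuspForm (Gamma0 N) 2) :
    IsParabolicHom (Gamma0 N) (ModularCurve.periodMap N f) := by
  intro γ hγ
  obtain ⟨δ, hδ⟩ := exists_conj_lower_left_eq_zero (γ : SL(2, ℤ)) hγ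
  obtain ⟨h1, h2, h3, h4⟩ := prim_spec N f
  obtain ⟨L, hL⟩ := h4 δ
  set m : SL(2, ℤ) := δ⁻¹ * γ * δ with hm
  have hm' : Tendsto (fun w : ℍ ↦ m • w) atImInfty atImInfty := by
    have : ((m : GL (Fin 2) ℝ)) 1 0 = 0 := by
      simp only [Matrix.SpecialLinearGroup.coe_GL_coe_matrix]
      simp [hδ]
    exact tendsto_smul_atImInfty this
  have h5 : Tendsto (fun w : ℍ ↦ prim N f (δ • (m • w)) - prim N f (δ • w)) atImInfty
      (𝓝 (L - L)) := (hL.comp hm').sub hL
  have h6 : (fun w : ℍ ↦ prim N f (δ • (m • w)) - prim N f (δ • w)) =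
      fun _ ↦ ModularCurve.periodMap N f (Additive.ofMul γ) := by
    funext w
    rw [periodMap_apply f (prim_spec N f) γ (δ • w)]
    congr 2
    rw [hm, ← mul_smul, ← mul_smul]
    congr 1
    group
  rw [h6, sub_self] at h5
  exact tendsto_nhds_unique tendsto_const_nhds h5

theorem periodLin_mem_parabolicHoms {N : ℕ} [NeZero N] (f : CuspForm (Gamma0 N) 2) :
    periodLin N f ∈ parabolicHoms ℂ (Gamma0 N) ℂ :=
  isParabolicHom_periodMap f

theorem range_periodHomPair_le (N : ℕ) [NeZero N] :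
    LinearMap.range (ModularCurve.periodHomPair N) ≤ parabolicHoms ℂ (Gamma0 N) ℂ := by
  rintro _ ⟨⟨f, g⟩, rfl⟩
  rw [periodHomPair_apply]
  have hf := periodLin_mem_parabolicHoms f
  have hg := periodLin_mem_parabolicHoms g
  exact add_mem (add_mem hf (charInvolution_mem_parabolicHoms N ℂ ℂ hf))
    (sub_mem hg (charInvolution_mem_parabolicHoms N ℂ ℂ hg))

end Fermat.Agent.Period
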