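import Mathlib
import Fermat.Prelude.Def_ModularCurve_PeriodHomPair
import Fermat.Prelude.Thm_Subgroup_IsArithmetic_exists_nat_mem_strictPeriods_conj

set_option autoImplicit false

open UpperHalfPlane Filter Topology Function CongruenceSubgroup
open scoped MatrixGroups ModularForm Manifold Pointwise

namespace Fermat.Agent.Period

/-- `F` is a primitive of `f` on the upper half plane. -/
def IsPrimitive (F f : ℍ → ℂ) : Prop := ∀ τ : ℍ, HasDerivAt (F ∘ ofComplex) (f τ) (τ : ℂ)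

/-- A holomorphic, `h`-periodic function on `ℍ` tending to `0` at `i∞` has a primitive which is a
holomorphic function of `q`, vanishing at `q = 0`. -/
theorem exists_primitive_qParam_of_periodic {h : ℝ} (hh : 0 < h) {g : ℍ → ℂ}
    (hper : Function.Periodic (g ∘ ofComplex) h) (hol : MDiff g) (hz : IsZeroAtImInfty g) :
    ∃ Φ : ℂ → ℂ, DifferentiableOn ℂ Φ (Metric.ball 0 1) ∧ Φ 0 = 0 ∧
      IsPrimitive (fun τ : ℍ ↦ Φ (Periodic.qParam h τ)) g := by
  have hbdd : IsBoundedAtImInfty g := hz.isBoundedAtImInfty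
  have hdiff := differentiableOn_cuspFunction_ball hh hper hol hbdd
  have h0 : cuspFunction h g 0 = 0 := hz.cuspFunction_apply_zero hh
  have hds : DifferentiableOn ℂ (dslope (cuspFunction h g) 0) (Metric.ball 0 1) :=
    (Complex.differentiableOn_dslope (Metric.ball_mem_nhds 0 one_pos)).2 hdiff
  obtain ⟨P, hP⟩ := hds.isExactOn_ball
  refine ⟨fun q ↦ (h / (2 * Real.pi * Complex.I)) * (P q - P 0), ?_, by simp, ?_⟩
  · intro q hq
    exact (((hP q hq).sub_const (P 0)).const_mul _).differentiableAt.differentiableWithinAt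
  · intro τ
    have hq : Periodic.qParam h τ ∈ Metric.ball (0 : ℂ) 1 := by
      rw [mem_ball_zero_iff]
      exact Periodic.norm_qParam_lt_one hh τ.im_pos
    have hqd : HasDerivAt (Periodic.qParam h) (2 * Real.pi * Complex.I / h * Periodic.qParam h τ)
        (τ : ℂ) := by
      unfold Periodic.qParam
      have h1 : HasDerivAt (fun z : ℂ ↦ 2 * Real.pi * Complex.I * z / h)
          (2 * Real.pi * Complex.I / h) (τ : ℂ) := by
        simpa using (((hasDerivAt_id (τ : ℂ)).const_mul (2 * Real.pi * Complex.I)).div_const (h : ℂ))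
      refine h1.cexp.congr_deriv ?_
      exact mul_comm _ _
    have h2 := (((hP _ hq).comp (τ : ℂ) hqd).sub_const (P 0)).const_mul
      ((h : ℂ) / (2 * Real.pi * Complex.I))
    have hval : (h : ℂ) / (2 * Real.pi * Complex.I) *
        (dslope (cuspFunction h g) 0 (Periodic.qParam h τ) *
          (2 * Real.pi * Complex.I / h * Periodic.qParam h τ)) = g τ := by
      have hqne : Periodic.qParam h (τ : ℂ) ≠ 0 := Periodic.qParam_ne_zero _
      have h3 : dslope (cuspFunction h g) 0 (Periodic.qParam h τ) * Periodic.qParam h τ = g τ := by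
        have h4 := sub_smul_dslope (cuspFunction h g) 0 (Periodic.qParam h τ)
        rw [h0, sub_zero, sub_zero, smul_eq_mul, eq_cuspFunction τ hh.ne' hper] at h4
        rw [mul_comm]; exact h4
      have hpi : (2 * Real.pi * Complex.I : ℂ) ≠ 0 := Complex.two_pi_I_ne_zero
      have hhc : (h : ℂ) ≠ 0 := by exact_mod_cast hh.ne'
      rw [← h3]
      field_simp
    rw [hval] at h2
    refine h2.congr_of_eventuallyEq ?_
    filter_upwards [isOpen_upperHalfPlaneSet.mem_nhds τ.im_pos] with w hw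
    simp only [Function.comp_apply]
    rw [ofComplex_apply_of_im_pos hw]

theorem IsPrimitive.exists_sub_eq_const {F G f : ℍ → ℂ} (hF : IsPrimitive F f)
    (hG : IsPrimitive G f) : ∃ c : ℂ, ∀ τ : ℍ, F τ - G τ = c := by
  have hd : ∀ z ∈ upperHalfPlaneSet, HasDerivAt (fun w ↦ (F ∘ ofComplex) w - (G ∘ ofComplex) w)
      0 z := by
    intro z hz
    have := (hF ⟨z, hz⟩).fun_sub (hG ⟨z, hz⟩)
    rwa [sub_self] at this
  refine ⟨F UpperHalfPlane.I - G UpperHalfPlane.I, fun τ ↦ ?_⟩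
  have hconv : Convex ℝ upperHalfPlaneSet := convex_halfSpace_im_gt 0
  have hpre : IsPreconnected upperHalfPlaneSet := hconv.isPreconnected
  have key := isOpen_upperHalfPlaneSet.is_const_of_deriv_eq_zero hpre
    (fun z hz ↦ (hd z hz).differentiableAt.differentiableWithinAt)
    (fun z hz ↦ (hd z hz).deriv) (x := (τ : ℂ)) (y := ((UpperHalfPlane.I : ℍ) : ℂ))
    τ.im_pos (UpperHalfPlane.I : ℍ).im_pos
  simpa only [Function.comp_apply, ofComplex_apply] using key

theorem IsPrimitive.comp_smul {F f : ℍ → ℂ} (hF : IsPrimitive F f) (γ : SL(2, ℤ)) :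
    IsPrimitive (fun τ ↦ F (γ • τ)) (f ∣[(2 : ℤ)] γ) := by
  intro τ
  have hdet : (0 : ℝ) < ((γ : GL (Fin 2) ℝ) : Matrix (Fin 2) (Fin 2) ℝ).det := by
    rw [← Matrix.GeneralLinearGroup.val_det_apply]; simp
  have h1 := (hasStrictDerivAt_smul hdet τ).hasDerivAt
  have h2 : HasDerivAt (F ∘ ofComplex) (f (γ • τ))
      (((γ : GL (Fin 2) ℝ) • ofComplex (τ : ℂ) : ℍ) : ℂ) := by
    rw [ofComplex_apply]
    exact hF (γ • τ)
  have h3 := h2.comp (τ : ℂ) h1
  have hdet1 : ((γ : GL (Fin 2) ℝ) : Matrix (Fin 2) (Fin 2) ℝ).det = 1 := by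
    rw [← Matrix.GeneralLinearGroup.val_det_apply]; simp
  have hval : (f ∣[(2 : ℤ)] γ) τ =
      f (γ • τ) * ((((γ : GL (Fin 2) ℝ) : Matrix (Fin 2) (Fin 2) ℝ).det : ℝ) / denom γ τ ^ 2) := by
    rw [ModularForm.SL_slash_apply, hdet1]
    simp [zpow_neg, div_eq_mul_inv]
  rw [hval]
  refine h3.congr_of_eventuallyEq ?_
  filter_upwards [isOpen_upperHalfPlaneSet.mem_nhds τ.im_pos] with w hw
  simp only [Function.comp_apply, ofComplex_apply]
  rfl

/-- There is a common width `h` such that for any weight two cusp form `f` on `Γ₀(N)` and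
`δ ∈ SL(2, ℤ)`, the form `f ∣ δ` has a primitive that is a holomorphic function of
`exp (2πiτ/h)` vanishing at `0`. -/
theorem exists_primitive_slash_qParam (N : ℕ) [NeZero N] : ∃ h : ℝ, 0 < h ∧
    ∀ (f : CuspForm (Gamma0 N) 2) (δ : SL(2, ℤ)), ∃ Φ : ℂ → ℂ,
      DifferentiableOn ℂ Φ (Metric.ball 0 1) ∧ Φ 0 = 0 ∧
      IsPrimitive (fun τ : ℍ ↦ Φ (Periodic.qParam h τ)) (f ∣[(2 : ℤ)] δ) := by
  obtain ⟨M, hM, hMper⟩ := Subgroup.IsArithmetic.exists_nat_mem_strictPeriods_conj
    (Gamma0 N : Subgroup (GL (Fin 2) ℝ))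
  have hMpos : (0 : ℝ) < M := by exact_mod_cast hM
  refine ⟨M, hMpos, fun f δ ↦ ?_⟩
  have hper : (M : ℝ) ∈ (ConjAct.toConjAct ((δ : GL (Fin 2) ℝ))⁻¹ •
      (Gamma0 N : Subgroup (GL (Fin 2) ℝ))).strictPeriods := by
    have := hMper δ⁻¹
    rw [map_inv] at this
    exact this
  have hcusp : IsCusp OnePoint.infty (ConjAct.toConjAct ((δ : GL (Fin 2) ℝ))⁻¹ •
      (Gamma0 N : Subgroup (GL (Fin 2) ℝ))) := Subgroup.isCusp_of_mem_strictPeriods hMpos hper
  have h1 : Function.Periodic ((CuspForm.translate f (δ : GL (Fin 2) ℝ)) ∘ ofComplex) (M : ℝ) :=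
    SlashInvariantFormClass.periodic_comp_ofComplex _ hper
  have h2 : MDiff (CuspForm.translate f (δ : GL (Fin 2) ℝ)) :=
    CuspFormClass.holo (CuspForm.translate f (δ : GL (Fin 2) ℝ))
  have h3 : IsZeroAtImInfty (CuspForm.translate f (δ : GL (Fin 2) ℝ)) :=
    OnePoint.isZeroAt_infty_iff.mp
      (CuspFormClass.zero_at_cusps (CuspForm.translate f (δ : GL (Fin 2) ℝ)) hcusp)
  exact exists_primitive_qParam_of_periodic hMpos h1 h2 h3

/-- For a weight two cusp form `f` on `Γ₀(N)` and `δ ∈ SL(2, ℤ)`, the form `f ∣ δ` has a primitive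
tending to `0` at `i∞`. -/
theorem exists_primitive_slash (N : ℕ) [NeZero N] (f : CuspForm (Gamma0 N) 2) (δ : SL(2, ℤ)) :
    ∃ G : ℍ → ℂ, IsPrimitive G (f ∣[(2 : ℤ)] δ) ∧ Tendsto G atImInfty (𝓝 0) := by
  obtain ⟨h, hh, H⟩ := exists_primitive_slash_qParam N
  obtain ⟨Φ, hΦ, hΦ0, hprim⟩ := H f δ
  refine ⟨_, hprim, ?_⟩
  have hc : ContinuousAt Φ 0 :=
    (hΦ.differentiableAt (Metric.ball_mem_nhds 0 one_pos)).continuousAt
  have h1 := hc.tendsto.comp (qParam_tendsto_atImInfty hh)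
  rwa [hΦ0] at h1

theorem exists_hasEquivariantPrimitive (N : ℕ) [NeZero N] (f : CuspForm (Gamma0 N) 2) :
    ∃ F : ℍ → ℂ, ModularCurve.HasEquivariantPrimitive N f F := by
  obtain ⟨F, hF, hF0⟩ := exists_primitive_slash N f 1
  rw [SlashAction.slash_one] at hF
  refine ⟨F, hF, hF0, ?_, ?_⟩
  · intro γ
    have h1 := hF.comp_smul (γ : SL(2, ℤ))
    have h2 : (f : ℍ → ℂ) ∣[(2 : ℤ)] (γ : SL(2, ℤ)) = f :=
      SlashInvariantFormClass.slash_action_eq f _ ⟨γ, γ.2, rfl⟩
    rw [h2] at h1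
    exact h1.exists_sub_eq_const hF
  · intro δ
    obtain ⟨G, hG, hG0⟩ := exists_primitive_slash N f δ
    obtain ⟨c, hc⟩ := (hF.comp_smul δ).exists_sub_eq_const hG
    refine ⟨c, ?_⟩
    have h3 : (fun w : ℍ ↦ F (δ • w)) = fun w ↦ G w + c := by
      ext w; rw [← hc w]; ring
    rw [h3]
    simpa using hG0.add_const c

/-- The normalised primitive of a cusp form. -/
noncomputable def prim (N : ℕ) [NeZero N] (f : CuspForm (Gamma0 N) 2) : ℍ → ℂ :=
  (exists_hasEquivariantPrimitive N f).choose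

theorem prim_spec (N : ℕ) [NeZero N] (f : CuspForm (Gamma0 N) 2) :
    ModularCurve.HasEquivariantPrimitive N f (prim N f) :=
  (exists_hasEquivariantPrimitive N f).choose_spec

theorem hasEquivariantPrimitive_unique {N : ℕ} [NeZero N] {f : CuspForm (Gamma0 N) 2}
    {F G : ℍ → ℂ} (hF : ModularCurve.HasEquivariantPrimitive N f F)
    (hG : ModularCurve.HasEquivariantPrimitive N f G) : F = G := by
  obtain ⟨c, hc⟩ := IsPrimitive.exists_sub_eq_const (f := f) hF.1 hG.1
  have h1 : Tendsto (fun τ ↦ F τ - G τ) atImInfty (𝓝 (0 - 0)) := hF.2.1.sub hG.2.1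
  have h2 : (fun τ : ℍ ↦ F τ - G τ) = fun _ ↦ c := funext hc
  rw [h2, sub_zero] at h1
  have h3 : c = 0 := tendsto_nhds_unique tendsto_const_nhds h1
  funext τ
  have := hc τ
  rw [h3, sub_eq_zero] at this
  exact this

theorem periodMap_apply {N : ℕ} [NeZero N] (f : CuspForm (Gamma0 N) 2) {F : ℍ → ℂ}
    (hF : ModularCurve.HasEquivariantPrimitive N f F) (γ : Gamma0 N) (τ : ℍ) :
    ModularCurve.periodMap N f (Additive.ofMul γ) = F ((γ : SL(2, ℤ)) • τ) - F τ := by
  obtain ⟨F₀, h₀, h⟩ := ModularCurve.periodMap_def N f hF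
  obtain rfl := hasEquivariantPrimitive_unique h₀ hF
  rw [h, ModularCurve.Period.IsEquivariantPrimitive.periodHom_apply,
    ← ModularCurve.Period.IsEquivariantPrimitive.sub_eq_period h₀.2.2.1 γ τ]

theorem prim_add {N : ℕ} [NeZero N] (f g : CuspForm (Gamma0 N) 2) :
    prim N (f + g) = prim N f + prim N g := by
  refine hasEquivariantPrimitive_unique (prim_spec N (f + g)) ?_
  obtain ⟨hf1, hf2, hf3, hf4⟩ := prim_spec N f
  obtain ⟨hg1, hg2, hg3, hg4⟩ := prim_spec N g
  refine ⟨fun τ ↦ ?_, ?_, ?_, ?_⟩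
  · exact (hf1 τ).add (hg1 τ)
  · have := hf2.add hg2
    rwa [add_zero] at this
  · intro γ
    obtain ⟨c, hc⟩ := hf3 γ
    obtain ⟨d, hd⟩ := hg3 γ
    exact ⟨c + d, fun z ↦ by simp only [Pi.add_apply]; rw [← hc z, ← hd z]; ring⟩
  · intro δ
    obtain ⟨L, hL⟩ := hf4 δ
    obtain ⟨L', hL'⟩ := hg4 δ
    exact ⟨L + L', hL.add hL'⟩

theorem prim_smul {N : ℕ} [NeZero N] (a : ℂ) (f : CuspForm (Gamma0 N) 2) :
    prim N (a • f) = a • prim N f := by
  refine hasEquivariantPrimitive_unique (prim_spec N (a • f)) ?_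
  obtain ⟨hf1, hf2, hf3, hf4⟩ := prim_spec N f
  refine ⟨fun τ ↦ ?_, ?_, ?_, ?_⟩
  · exact (hf1 τ).const_smul a
  · have := hf2.const_smul a
    rwa [smul_zero] at this
  · intro γ
    obtain ⟨c, hc⟩ := hf3 γ
    exact ⟨a * c, fun z ↦ by simp only [Pi.smul_apply, smul_eq_mul]; rw [← hc z]; ring⟩
  · intro δ
    obtain ⟨L, hL⟩ := hf4 δ
    exact ⟨a • L, hL.const_smul a⟩

/-- The period map as a linear map. -/
noncomputable def periodLin (N : ℕ) [NeZero N] :
    CuspForm (Gamma0 N) 2 →ₗ[ℂ] (Additive (Gamma0 N) →+ ℂ) where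
  toFun f := ModularCurve.periodMap N f
  map_add' f g := by
    refine AddMonoidHom.ext fun γ' ↦ ?_
    obtain ⟨γ, rfl⟩ := Additive.ofMul.surjective γ'
    rw [AddMonoidHom.add_apply, periodMap_apply _ (prim_spec N (f + g)) γ UpperHalfPlane.I,
      periodMap_apply _ (prim_spec N f) γ UpperHalfPlane.I,
      periodMap_apply _ (prim_spec N g) γ UpperHalfPlane.I, prim_add]
    simp only [Pi.add_apply]; ring
  map_smul' a f := by
    refine AddMonoidHom.ext fun γ' ↦ ?_
    obtain ⟨γ, rfl⟩ := Additive.ofMul.surjective γ'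
    rw [periodMap_apply _ (prim_spec N (a • f)) γ UpperHalfPlane.I, prim_smul]
    change _ = a • (ModularCurve.periodMap N f (Additive.ofMul γ))
    rw [periodMap_apply _ (prim_spec N f) γ UpperHalfPlane.I]
    simp only [Pi.smul_apply, smul_eq_mul]; ring

@[simp] theorem periodLin_apply (N : ℕ) [NeZero N] (f : CuspForm (Gamma0 N) 2) :
    periodLin N f = ModularCurve.periodMap N f := rfl

theorem existsPeriodMapLinear (N : ℕ) [NeZero N] : ModularCurve.ExistsPeriodMapLinear N :=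
  ⟨periodLin N, fun _ ↦ rfl⟩

theorem periodHomPair_apply (N : ℕ) [NeZero N] (f g : CuspForm (Gamma0 N) 2) :
    ModularCurve.periodHomPair N (f, g) =
      (periodLin N f + ModularCurve.Period.charInvolution N ℂ ℂ (periodLin N f)) +
      (periodLin N g - ModularCurve.Period.charInvolution N ℂ ℂ (periodLin N g)) := by
  obtain ⟨pml, hpml, h⟩ := ModularCurve.periodHomPair_def N (existsPeriodMapLinear N)
  obtain rfl : pml = periodLin N := LinearMap.ext hpml
  rw [h]
  simp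

end Fermat.Agent.Period
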